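import Fermat.Agent.Ribet.H103.S2Spec
import Fermat.Agent.Ribet.H883.AlgPGStatement

/-!
# RIBET, wall at `p`, target (S2): the core for BOTH routes of ALG-p (helper912)

`Ribet/H103/S2Spec.lean` (helper103) proves `s2core` from `H103.AlgP.AlgPStatement` (route S-p with
purity hypotheses).  `Ribet/H883/AlgPGStatement.lean` (helper883) provides the interface statement
`H883.AlgPStatementG` which BOTH routes prove (route S-p: `algPStatementG_of_algPStatement`,
route G-p: `algPStatementG_of_countW` from the single leaf COUNT-W); it carries the extra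
hypotheses (separating coordinates, `τ x = x`, finite order) which the modular model
`A2.ModSSData` provides.  This file is the glue:

* `s2coreG`            : `AlgPStatementG → DeepPureClass p M' A x → (σ • x = c • x)`, `p ≠ 2`;
* `s2For_of_algPG`     : `AlgPStatementG → DictFor → NCFor → S2For p M' A 𝒮`;
* `s2For_of_algPG_ncx` : `AlgPStatementG → NCXStatement → S2For p M' A 𝒮`;
* `s2For_of_countW`    : `CountWLeaf → DictFor → NCFor → S2For p M' A 𝒮`   (route G-p);
* `s2For_of_algP495`   : `H495.AlgP.AlgPStatement → DictFor → NCFor → S2For p M' A 𝒮` (route S-p).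

The purity clauses of `DeepPureClass` are not used.
-/

set_option autoImplicit false
set_option linter.style.haveILetI false
set_option synthInstance.maxHeartbeats 400000
set_option maxHeartbeats 1600000

noncomputable section

namespace Fermat.Agent.Ribet.H912

open AlgebraicCurve ModularCurve
open Fermat.Agent.A2 Fermat.Agent.A2.Alg Fermat.Agent.A2.T1.H669
open Fermat.Agent.Ribet.H103.AlgP Fermat.Agent.Ribet.H103.S2

/-- **S2, core, for the common interface `AlgPStatementG`.**  On a deeply split class inertia acts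
through the cyclotomic character. -/
theorem s2coreG (hALG : Fermat.Agent.Ribet.H883.AlgPStatementG) (p M' : ℕ) (hp : p.Prime)
    (hp2 : p ≠ 2) (A : ValuationSubring (AlgebraicClosure ℚ)) (hA : A.LiesOverPrime p)
    (x : JZero (p * M')) (hx : DeepPureClass p M' A x) :
    ∀ σ ∈ A.inertiaSubgroupIn ℚ, ∀ c : ℕ, Fermat.Agent.Ribet.H944.Wall.CycloAt p σ c →
      σ • x = c • x := by
  intro σ hσ c hc
  obtain ⟨E, hE, D, ζ, w, y, cf, ci, hζ, hw, ⟨hf0, Dv, hDx, hord⟩, hdf, hdi, -, -⟩ := hx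
  haveI : IsDiscreteValuationRing ↥(RE A E) := hE.dvr
  haveI : HenselianLocalRing ↥(RE A E) := hE.henselian
  haveI : IsAlgClosed (IsLocalRing.ResidueField ↥(RE A E)) := hE.algClosed
  set F₀ := modularFunctionFieldFull (p * M') with hF₀
  have hy0 : y ≠ 0 := by
    rintro rfl
    exact hf0 (map_zero _)
  have hdiv : DivisibleDiv E p y :=
    divisibleDiv_of_ord E F₀ p y hy0 (fun v => ⟨_, hord v⟩)
  -- the cyclotomic character on `ζ`
  have hk : resR hE σ hσ ζ = ζ ^ c := by
    apply Subtype.ext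
    apply Subtype.ext
    show σ (((ζ : ↥(RE A E)) : E) : AlgebraicClosure ℚ) =
      (((ζ ^ c : ↥(RE A E)) : E) : AlgebraicClosure ℚ)
    have h1 : ((((ζ : ↥(RE A E)) : E) : AlgebraicClosure ℚ)) ^ p = 1 := by
      have := congrArg (fun z : ↥(RE A E) => (((z : E)) : AlgebraicClosure ℚ)) hζ.pow_eq_one
      simpa using this
    rw [hc _ h1]
    simp
  have hconcl : Fermat.Agent.Ribet.H495.AlgP.AlgPConclusion E D.Bf D.Bi cf ci p (ζ - 1) c
      (arithmeticRingAut F₀ (hE.res σ hσ)) :=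
    hALG (R := ↥(RE A E)) (E := E) (F := ↥(FE E (p * M'))) w hw p hp hp2
      (natCast_mem_maximalIdeal_RE E hA) ζ hζ D.x D.hx D.hfin D.hconst D.Bf D.Bi D.hBf D.hBi
      cf ci D.sf D.si
      (arithmeticRingAut F₀ (hE.res σ hσ))
      (hE.res σ hσ).toRingEquiv (resR hE σ hσ)
      (fun e => arithmeticRingAut_algebraMap F₀ (hE.res σ hσ) e)
      (fun r => rfl)
      (D.hτx hE σ hσ)
      (finite_order_arithmeticRingAut F₀ hE σ hσ)
      (D.hτf hE σ hσ w hw) (D.hτi hE σ hσ w hw)
      c hk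
  obtain ⟨h, hh0, hh⟩ := hconcl y hy0 hdiv hdf hdi
  -- push to `F̄`
  have h1 := congrArg (iota E F₀) hh
  rw [map_mul, map_pow, map_pow, iota_arithmeticRingAut E F₀ σ (hE.res σ hσ) (fun e => rfl)]
    at h1
  rw [← hDx]
  exact Fermat.Agent.Ribet.H103.S2.smul_eq_nsmul_of_kummer (arithmeticGalois F₀ σ) p c hp.ne_zero
    Dv (iota E F₀ y) hf0 hord (iota E F₀ h) (iota_ne_zero E F₀ hh0) h1

/-- **S2 from `AlgPStatementG` and NCX.** -/
theorem s2For_of_algPG_ncx (hALG : Fermat.Agent.Ribet.H883.AlgPStatementG) (p M' : ℕ)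
    [NeZero M'] [NeZero p] [NeZero (p * M')] (hp : p.Prime) (hp2 : p ≠ 2)
    (A : ValuationSubring (AlgebraicClosure ℚ)) (hA : A.LiesOverPrime p)
    (𝒮 : AddSubgroup (JZero (p * M'))) (hNCX : NCXStatement p M' A 𝒮) :
    Fermat.Agent.Ribet.H944.Wall.S2For p M' A 𝒮 := by
  intro x hx hnew σ hσ c hc
  exact s2coreG hALG p M' hp hp2 A hA x (hNCX x hx hnew) σ hσ c hc

/-- **S2 from `AlgPStatementG`, DICT and NC.** -/
theorem s2For_of_algPG (hALG : Fermat.Agent.Ribet.H883.AlgPStatementG) (p M' : ℕ)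
    [NeZero M'] [NeZero p] [NeZero (p * M')] (hp : p.Prime) (hp2 : p ≠ 2)
    (A : ValuationSubring (AlgebraicClosure ℚ)) (hA : A.LiesOverPrime p)
    (𝒮 : AddSubgroup (JZero (p * M'))) (hD : DictFor p M' A 𝒮) (hNC : NCFor p M' A) :
    Fermat.Agent.Ribet.H944.Wall.S2For p M' A 𝒮 :=
  s2For_of_algPG_ncx hALG p M' hp hp2 A hA 𝒮 (ncx_of p M' A 𝒮 hD hNC)

/-- **S2 by route G-p**: from the single abstract leaf COUNT-W, DICT and NC. -/
theorem s2For_of_countW (hC : Fermat.Agent.Ribet.H883.CountWLeaf) (p M' : ℕ)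
    [NeZero M'] [NeZero p] [NeZero (p * M')] (hp : p.Prime) (hp2 : p ≠ 2)
    (A : ValuationSubring (AlgebraicClosure ℚ)) (hA : A.LiesOverPrime p)
    (𝒮 : AddSubgroup (JZero (p * M'))) (hD : DictFor p M' A 𝒮) (hNC : NCFor p M' A) :
    Fermat.Agent.Ribet.H944.Wall.S2For p M' A 𝒮 :=
  s2For_of_algPG (Fermat.Agent.Ribet.H883.algPStatementG_of_countW hC) p M' hp hp2 A hA 𝒮 hD hNC

/-- **S2 by route S-p** (interface of helper495): from `H495.AlgP.AlgPStatement`, DICT and NC. -/
theorem s2For_of_algP495 (hALG : Fermat.Agent.Ribet.H495.AlgP.AlgPStatement) (p M' : ℕ)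
    [NeZero M'] [NeZero p] [NeZero (p * M')] (hp : p.Prime) (hp2 : p ≠ 2)
    (A : ValuationSubring (AlgebraicClosure ℚ)) (hA : A.LiesOverPrime p)
    (𝒮 : AddSubgroup (JZero (p * M'))) (hD : DictFor p M' A 𝒮) (hNC : NCFor p M' A) :
    Fermat.Agent.Ribet.H944.Wall.S2For p M' A 𝒮 :=
  s2For_of_algPG (Fermat.Agent.Ribet.H883.algPStatementG_of_algPStatement hALG) p M' hp hp2 A hA
    𝒮 hD hNC

end Fermat.Agent.Ribet.H912

end
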