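import Fermat.Agent.Ribet.H912.TameCore
import Fermat.Agent.Ribet.H967.TameReduce

/-!
# RIBET row 38, WALL-p, (S4) CORE-OUT: the leaf TAME (helper912)

* `tameFixed     : H967.Tame.TameFixedStatement`  (VERBATIM; classes fixed by the whole inertia
                   group), from `tameCore` with residue prime `= ` exponent `= p ≥ 5`;
* `tameStatement : H704.CoreOut.TameStatement`    (VERBATIM) `= H967.Tame.tame_of_fixed tameFixed`.
-/

set_option autoImplicit false
set_option synthInstance.maxHeartbeats 400000
set_option maxHeartbeats 1600000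

noncomputable section

namespace Fermat.Agent.Ribet.H912

open Fermat.Agent.Ribet.H884

/-- **TAME-FIXED** (`H967.Tame.TameFixedStatement`, VERBATIM). -/
theorem tameFixed : Fermat.Agent.Ribet.H967.Tame.TameFixedStatement := by
  intro p M' _ _ _ hp hp5 hpM A hA S a hNE x hx hex hfix
  have haux : Fermat.Agent.S35.G.HasAux M' p := ⟨fun h => by omega, fun h => by omega⟩
  obtain ⟨f, D, G, a', b', hK, hD, hD0, heq, hNG⟩ :=
    tameCore p M' p hp hpM haux hp.pos (coprime_twelve_h912 hp hp5) A hA x hx.1 hfix
  exact ⟨f, D, G, 12, a', b', hK, hD, hD0, not_dvd_twelve_h912 hp hp5, heq, hNG⟩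

/-- **TAME** (`H704.CoreOut.TameStatement`, VERBATIM). -/
theorem tameStatement : Fermat.Agent.Ribet.H704.CoreOut.TameStatement :=
  Fermat.Agent.Ribet.H967.Tame.tame_of_fixed tameFixed

end Fermat.Agent.Ribet.H912

end
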