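import Fermat.Agent.Ribet.H912.TameCore
import Fermat.Agent.Ribet.H158.WallQGood

/-!
# RIBET row 37, WALL-q: the leaf CORE-OUT-q at good levels (helper912)

`coreOutQGood : H158.WallQ.CoreOutQGoodStatement` (VERBATIM), from `tameCore` with residue prime
`q` and exponent `m = p ^ n` (`p ≥ 5`, so `m` is prime to `12`; `q = 3` needs `2 ∣ M'`).
-/

set_option autoImplicit false
set_option synthInstance.maxHeartbeats 400000
set_option maxHeartbeats 1600000

noncomputable section

namespace Fermat.Agent.Ribet.H912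

open Fermat.Agent.Ribet.H884 Fermat.Agent.Ribet.H158.WallQ

/-- **CORE-OUT-q at good levels** (`H158.WallQ.CoreOutQGoodStatement`, VERBATIM). -/
theorem coreOutQGood : Fermat.Agent.Ribet.H158.WallQ.CoreOutQGoodStatement := by
  intro p n q M' _ _ _ h A hA S a x hx hex hfix
  have haux : Fermat.Agent.S35.G.HasAux M' q := by
    refine ⟨fun h3 => ?_, fun h2 => absurd h2 h.q_ne_two⟩
    rcases h.good with h5 | ⟨-, h2⟩
    · omega
    · exact h2
  have hcop : Nat.Coprime 12 (p ^ n) :=
    Nat.Coprime.pow_right n (coprime_twelve_h912 h.p_prime h.five_le)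
  obtain ⟨f, D, G, a', b', hK, hD, hD0, heq, hNG⟩ :=
    tameCore q M' (p ^ n) h.q_prime h.not_dvd haux (pow_pos h.p_prime.pos n) hcop A hA x hx.1
      hfix
  exact ⟨f, D, G, 12, a', b', hK, hD, hD0, by norm_num, hcop, heq, hNG⟩

end Fermat.Agent.Ribet.H912

end
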