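import Fermat.Agent.A2.H912.CoverLeafU

/-!
# Row 38, WALL-p, (S2) / W-ALGP: leaf COVER-W (the cover of route G for ANY split predicate)
(helper912, author of the A2 leaf COVER `A2/H912/Cover*.lean`)

`coverGeneric`: the Kummer cover `L = F(τ^i(g)^{1/m} : i < r)` of `A2/H912/Cover.lean`
(`r` the order of `τ` on `F`; no hypothesis relating `m` to the residue characteristic, and `τ` is
NOT required to fix the `m`-th roots of unity) with ALL the data of `H12.IsKummerSplitU`, for an
arbitrary "split at a sheet" predicate `Sp` which is transported by the powers of `τ`.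

* `coverGeneric`   : generic form (`Sp` arbitrary);
* `SplitAtLam`, `splitAtLam_map` : the wild split predicate "`g ≡ u^m` modulo `lam^m 𝔪_V`"
  (`lam = ζ - 1`) and its transport;
* `coverWild`      : `coverGeneric` for `SplitAtLam`.
-/

set_option autoImplicit false

namespace Fermat.Agent.Ribet.H912

open Fermat.Agent.A2 Fermat.Agent.A2.H12 Fermat.Agent.A2.H912

universe u

section Main

variable {R : Type u} [CommRing R] {F : Type u} [Field F] [Algebra R F]

/-- The data of a Kummer cover of exponent `m` which is "split" (in the sense of `Sp`) at every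
sheet: `H12.IsKummerSplitU` with `SplitAtU m` replaced by `Sp`. -/
structure IsKummerCover (L : Type u) [Field L] [Algebra F L] (w : R) (x : F) (m : ℕ)
    (Sp : ValuationSubring F → F → Prop) : Prop where
  finite : FiniteDimensional F L
  galois : IsGalois F L
  gen : ∃ (n : ℕ) (y : Fin n → L) (g : Fin n → F),
    (∀ i, g i ≠ 0) ∧ (∀ i, y i ^ m = algebraMap F L (g i)) ∧
    IntermediateField.adjoin F (Set.range y) = ⊤ ∧
    (∀ i, HorDiv R m (g i)) ∧ ∀ i, ∀ V : ValuationSubring F, IsSheet w x V → Sp V (g i)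

/-- **Leaf COVER, generic split predicate.** -/
theorem coverGeneric [CharZero F] (w : R) (x : F) (m : ℕ) (τ : F ≃+* F) (τR : R ≃+* R)
    (hinj : Function.Injective (algebraMap R F)) (hm : 0 < m)
    (hroot : ∃ ζ : R, IsPrimitiveRoot ζ m)
    (hτx : τ x = x) (hτR : ∀ r, τ (algebraMap R F r) = algebraMap R F (τR r))
    (hτw : ∀ r, w ∣ r ↔ w ∣ τR r)
    {r : ℕ} (hr : 0 < r) (hτr : τ ^ r = 1)
    (Sp : ValuationSubring F → F → Prop)
    (hSp : ∀ (i : ℕ) (V : ValuationSubring F) (g : F), IsSheet w x V →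
      Sp (V.comap ((τ ^ i : F ≃+* F) : F →+* F)) g → Sp V ((τ ^ i) g))
    (g : F) (hg : g ≠ 0) (hdiv : HorDiv R m g)
    (hsplit : ∀ V : ValuationSubring F, IsSheet w x V → Sp V g) :
    ∃ (L : Type u) (_ : Field L) (_ : Algebra F L) (_ : Algebra R L) (_ : IsScalarTower R F L),
      IsKummerCover (R := R) L w x m Sp ∧ ∃ (τ' : L ≃+* L) (y : L),
        (∀ f : F, τ' (algebraMap F L f) = algebraMap F L (τ f)) ∧ y ^ m = algebraMap F L g := by
  obtain ⟨ζ, hζ⟩ := hroot
  have hζF : IsPrimitiveRoot (algebraMap R F ζ) m := hζ.map_of_injective hinj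
  let algRL : Algebra R (coverField τ r m g) :=
    ((algebraMap F (coverField τ r m g)).comp (algebraMap R F)).toAlgebra
  have tower : IsScalarTower R F (coverField τ r m g) :=
    IsScalarTower.of_algebraMap_eq (fun _ => rfl)
  refine ⟨coverField τ r m g, inferInstance, inferInstance, algRL, tower, ?_,
    coverLift τ r m g hm hτr, coverRoot τ r m g hr hm,
    fun f => coverLift_algebraMap τ r m g hm hτr f, coverRoot_pow τ r m g hr hm⟩
  refine ⟨inferInstance, inferInstance, r, fun i => coverSeq τ r m g hr hm hτr i,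
    fun i => (τ ^ (i : ℕ)) g, ?_, ?_, ?_, ?_, ?_⟩
  · intro i
    exact (map_ne_zero_iff _ (RingEquiv.injective _)).2 hg
  · intro i
    exact coverSeq_pow τ r m g hr hm hτr i
  · exact adjoin_range_coverSeq τ r m g hr hm hτr hζF
  · intro i
    exact horDiv_map m (τ ^ (i : ℕ)) (τR ^ (i : ℕ))
      (fun a => ringAut_pow_algebraMap τ τR hτR i a) hdiv
  · intro i V hV
    refine hSp i V g hV (hsplit _ ?_)
    exact hV.comap (τ ^ (i : ℕ)) (τR ^ (i : ℕ)) (fun a => ringAut_pow_algebraMap τ τR hτR i a)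
      (fun a => ringAut_pow_dvd_iff w τR hτw i a) (ringAut_pow_fix τ hτx i)

/-- The tame cover is the case `Sp = SplitAtU m`. -/
theorem isKummerCover_iff_isKummerSplitU (L : Type u) [Field L] [Algebra F L] [Algebra R L]
    [IsScalarTower R F L] (w : R) (x : F) (m : ℕ) :
    IsKummerCover (R := R) L w x m (SplitAtU m) ↔ IsKummerSplitU L w x m :=
  ⟨fun h => ⟨h.finite, h.galois, h.gen⟩, fun h => ⟨h.finite, h.galois, h.gen⟩⟩

/-! ## The wild split predicate -/

/-- **Wild split at a sheet.**  `g` is a unit of `V` congruent to an `m`-th power `u ^ m` modulo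
`lam ^ m · 𝔪_V` (`lam = ζ - 1`, `m = p`): then `g / u ^ m = 1 + lam ^ m z` with `z ∈ 𝔪_V`, which is
a `p`-th power in the henselisation of `V`. -/
def SplitAtLam (lam : F) (m : ℕ) (V : ValuationSubring F) (g : F) : Prop :=
  ∃ u z : F, u ≠ 0 ∧ u ∈ V ∧ u⁻¹ ∈ V ∧ z ∈ V.nonunits ∧ g - u ^ m = lam ^ m * z

/-- Transport of `SplitAtLam` along an automorphism `ψ` which multiplies `lam` by a unit of `V`. -/
theorem splitAtLam_map (lam : F) (m : ℕ) (ψ : F ≃+* F) (V : ValuationSubring F) {g : F}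
    (hlam : ∃ ε : F, ε ∈ V ∧ ψ lam = ε * lam)
    (h : SplitAtLam lam m (V.comap (ψ : F →+* F)) g) : SplitAtLam lam m V (ψ g) := by
  obtain ⟨u, z, hu0, hu, hu', hz, hg⟩ := h
  obtain ⟨ε, hε, hψ⟩ := hlam
  refine ⟨ψ u, ε ^ m * ψ z, (map_ne_zero_iff _ ψ.injective).2 hu0, hu, ?_, ?_, ?_⟩
  · rw [← map_inv₀]
    exact hu'
  · rw [mem_nonunits_comap] at hz
    exact mul_mem_nonunits V (by simpa using hz) (V.pow_mem hε m)
  · have := congrArg ψ hg
    rw [map_sub, map_pow, map_mul, map_pow, hψ] at this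
    rw [this]
    ring

/-- `SplitAtLam` implies `SplitAtU` when `lam ∈ V`. -/
theorem SplitAtLam.splitAtU {lam : F} {m : ℕ} {V : ValuationSubring F} {g : F}
    (hlam : lam ∈ V) (h : SplitAtLam lam m V g) : SplitAtU m V g := by
  obtain ⟨u, z, hu0, hu, hu', hz, hg⟩ := h
  refine ⟨u, hu0, hu, hu', ?_⟩
  rw [hg]
  exact mul_mem_nonunits V hz (V.pow_mem hlam m)

/-- **Leaf COVER-W**: the cover for the wild split predicate, `lam ∈ R` with `τ_R lam = ε lam`. -/
theorem coverWild [CharZero F] (w : R) (x : F) (m : ℕ) (τ : F ≃+* F) (τR : R ≃+* R)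
    (hinj : Function.Injective (algebraMap R F)) (hm : 0 < m)
    (hroot : ∃ ζ : R, IsPrimitiveRoot ζ m)
    (hτx : τ x = x) (hτR : ∀ r, τ (algebraMap R F r) = algebraMap R F (τR r))
    (hτw : ∀ r, w ∣ r ↔ w ∣ τR r)
    {r : ℕ} (hr : 0 < r) (hτr : τ ^ r = 1)
    (lam : R) (hlam : ∀ i : ℕ, ∃ ε : R, (τR ^ i) lam = ε * lam)
    (g : F) (hg : g ≠ 0) (hdiv : HorDiv R m g)
    (hsplit : ∀ V : ValuationSubring F, IsSheet w x V → SplitAtLam (algebraMap R F lam) m V g) :
    ∃ (L : Type u) (_ : Field L) (_ : Algebra F L) (_ : Algebra R L) (_ : IsScalarTower R F L),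
      IsKummerCover (R := R) L w x m (SplitAtLam (algebraMap R F lam) m) ∧
      ∃ (τ' : L ≃+* L) (y : L),
        (∀ f : F, τ' (algebraMap F L f) = algebraMap F L (τ f)) ∧ y ^ m = algebraMap F L g := by
  refine coverGeneric w x m τ τR hinj hm hroot hτx hτR hτw hr hτr _ ?_ g hg hdiv hsplit
  intro i V g' hV h
  refine splitAtLam_map _ m (τ ^ i) V ?_ h
  obtain ⟨ε, hε⟩ := hlam i
  refine ⟨algebraMap R F ε, hV.1 ε, ?_⟩
  rw [ringAut_pow_algebraMap τ τR hτR i lam, hε, map_mul]

end Main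

end Fermat.Agent.Ribet.H912
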