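import Fermat.Agent.A2.H129.KummerJZero
import Fermat.Agent.Ribet.H884.SlopeSpec

/-!
# Row 38, WALL-p, (S2): the Kummer dictionary for "`σ` acts through `χ`" (T0 of (S2))
(helper912; the analogue of `A2/H129/Kummer.lean` + `A2/T0/H669/T0.lean` for the wall at `p`)

`x = [D]`, `div f = m · D` (`f` a Kummer generator of `x`).  If `σ f = a · y ^ m · f ^ c`
(`a` a nonzero constant), then `σ x = c · x`.

* `smul_eq_nsmul_of_kummer`     : abstract form (`SemilinearAut K F`, `Pic0 K F`);
* `jzero_smul_eq_nsmul_of_gen`  : for `JZero N`, `H884.IsKummerGen`, `σ ∈ G_ℚ`;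
* `KummerChiFor`, `s2For_of_kummerChi` : the Kummer form of `H944.Wall.S2For` for an arbitrary
  subgroup `𝒮` and the implication `KummerChiFor → S2For`;
* `s2Statement_of_kummerChi`    : `H884.S2Statement` from the Kummer form for `𝒮 = splitPart`.
-/

set_option autoImplicit false

noncomputable section

namespace Fermat.Agent.Ribet.H912

open AlgebraicCurve ModularCurve
open Fermat.Agent.A2.H129
open Fermat.Agent.S24
open Fermat.Agent.Ribet.Spec Fermat.Agent.Ribet.H944.Wall Fermat.Agent.Ribet.H884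

section Abstract

variable {K F : Type*} [Field K] [Field F] [Algebra K F]

/-- **K1 for `χ`.**  If `g f = a · y ^ m · f ^ c` for a Kummer generator `f` of `x = [D]`
(`div f = m · D`), then `g • x = c • x`. -/
theorem smul_eq_nsmul_of_kummer (g : SemilinearAut K F) (m : ℕ) (hm : m ≠ 0) (c : ℕ)
    (D : Divisor.degZero (K := K) (F := F)) (f : F) (hf : f ≠ 0)
    (hfD : ∀ v : Place K F, v.ord f = (m : ℤ) * (D : Divisor K F) v)
    (a : K) (ha : a ≠ 0) (y : F) (hy : y ≠ 0)
    (h : SemilinearAut.toRingAut g f = algebraMap K F a * y ^ m * f ^ c) :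
    g • (Pic0.mk D) = c • (Pic0.mk D : Pic0 K F) := by
  set E : Divisor.degZero (K := K) (F := F) := SemilinearAut.degZeroSMulHom g D - c • D with hE
  have hgoal : g • (Pic0.mk D) - c • (Pic0.mk D : Pic0 K F) = Pic0.mk E := by
    rw [SemilinearAut.pic0_smul_mk]
    rfl
  rw [← sub_eq_zero, hgoal]
  refine (QuotientAddGroup.eq_zero_iff E).2 ?_
  rw [AddSubgroup.mem_addSubgroupOf]
  refine ⟨y, hy, fun w => ?_⟩
  have hEw : (E : Divisor K F) w =
      (D : Divisor K F) (g⁻¹ • w) - (c : ℤ) * (D : Divisor K F) w := by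
    simp only [hE, AddSubgroupClass.coe_sub, SemilinearAut.coe_degZeroSMulHom,
      Finsupp.sub_apply, SemilinearAut.divisor_smul_apply, AddSubmonoidClass.coe_nsmul,
      Finsupp.smul_apply, nsmul_eq_mul]
  have haF : algebraMap K F a ≠ 0 := by simpa using ha
  have hord : w.ord (SemilinearAut.toRingAut g f) =
      (m : ℤ) * w.ord y + (c : ℤ) * w.ord f := by
    rw [h, w.ord_mul (mul_ne_zero haF (pow_ne_zero m hy)) (pow_ne_zero c hf),
      w.ord_mul haF (pow_ne_zero m hy), ord_algebraMap_eq_zero, zero_add, ord_pow, ord_pow]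
  have hmE : (m : ℤ) * (E : Divisor K F) w = (m : ℤ) * w.ord y := by
    have h1 := ord_smul_eq g w f
    rw [hord, hfD, hfD] at h1
    rw [hEw]
    linear_combination -h1
  have hm' : (m : ℤ) ≠ 0 := by exact_mod_cast hm
  exact (mul_left_cancel₀ hm' hmE).symm ▸ rfl

end Abstract

section JZero

variable (N : ℕ) [NeZero N]

/-- **T0 for `χ`**, one class: a Kummer generator `f` of `x ∈ J₀(N)` with
`σ f = a · y ^ p · f ^ c` gives `σ • x = c • x`. -/
theorem jzero_smul_eq_nsmul_of_gen (p : ℕ) (hp : p ≠ 0) (c : ℕ)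
    (σ : AlgebraicClosure ℚ ≃ₐ[ℚ] AlgebraicClosure ℚ) (x : JZero N) (f : FF N)
    (hf : IsKummerGen N p f x) (a : Kbar) (ha : a ≠ 0) (y : FF N) (hy : y ≠ 0)
    (h : arithmeticRingAut (modularFunctionFieldFull N) σ f =
      algebraMap Kbar (FF N) a * y ^ p * f ^ c) :
    σ • x = c • x := by
  obtain ⟨hf0, D, rfl, hfD⟩ := hf
  have h' : SemilinearAut.toRingAut (arithmeticGalois (modularFunctionFieldFull N) σ) f =
      algebraMap Kbar (FF N) a * y ^ p * f ^ c := by
    rw [toRingAut_arithmeticGalois]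
    exact h
  exact smul_eq_nsmul_of_kummer (arithmeticGalois (modularFunctionFieldFull N) σ) p hp c D f hf0
    hfD a ha y hy h'

end JZero

section S2

variable (p M' : ℕ) [NeZero M'] [NeZero p] [NeZero (p * M')]

/-- **Kummer form of (S2)** for a subgroup `𝒮`: every new class of `𝒮` has, for every `σ ∈ I_A`
with `σ ζ = ζ ^ c`, a Kummer generator `f` with `σ f = a · y ^ p · f ^ c`. -/
def KummerChiFor (A : ValuationSubring (AlgebraicClosure ℚ))
    (𝒮 : AddSubgroup (JZero (p * M'))) : Prop :=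
  ∀ x ∈ 𝒮, IsNewTors p M' x →
    ∀ σ ∈ A.inertiaSubgroupIn ℚ, ∀ c : ℕ, CycloAt p σ c →
      ∃ (f y : FF (p * M')) (a : Kbar), IsKummerGen (p * M') p f x ∧ a ≠ 0 ∧ y ≠ 0 ∧
        arithmeticRingAut (modularFunctionFieldFull (p * M')) σ f =
          algebraMap Kbar (FF (p * M')) a * y ^ p * f ^ c

/-- **T0 of (S2).** -/
theorem s2For_of_kummerChi (A : ValuationSubring (AlgebraicClosure ℚ))
    (𝒮 : AddSubgroup (JZero (p * M'))) (h : KummerChiFor p M' A 𝒮) : S2For p M' A 𝒮 := by
  intro x hx hnew σ hσ c hc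
  obtain ⟨f, y, a, hf, ha, hy, hrel⟩ := h x hx hnew σ hσ c hc
  exact jzero_smul_eq_nsmul_of_gen (p * M') p (NeZero.ne p) c σ x f hf a ha y hy hrel

end S2

/-- `H884.S2Statement` from the Kummer form of (S2) for `𝒮 = splitPart`. -/
theorem s2Statement_of_kummerChi
    (h : ∀ (p M' : ℕ) [NeZero M'] [NeZero p] [NeZero (p * M')], p.Prime → p ≠ 2 → ¬ p ∣ M' →
      ∀ A : ValuationSubring Kbar, A.LiesOverPrime p →
        KummerChiFor p M' A (splitPart p M' A)) :
    S2Statement := by
  intro p M' _ _ _ hp hp2 hpM A hA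
  exact s2For_of_kummerChi p M' A _ (h p M' hp hp2 hpM A hA)

end Fermat.Agent.Ribet.H912

end
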