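import Fermat.Agent.Ribet.H912.TameLevel
import Fermat.Agent.Ribet.H472.DictPure
import Fermat.Agent.S36.H756.WireAbs
import Fermat.Agent.S36.H756.DescPic
import Fermat.Agent.S18.H144.ConstF
import Fermat.Agent.Lib.RR.H864.FF1Modular
import Fermat.Agent.A2.T1.H669.T2

/-!
# RIBET rows 37/38: TAME-FIXED = CORE-OUT-q in two-prime form (helper912)

`tameCore` : `q` a prime, `q ∤ M`, `A` a place of `ℚ̄` over `q`, `m > 0` prime to `12`,
`x ∈ J₀(q M)[m]` fixed by the inertia group `I_A`.  Then there are a Kummer generator `f` of `x`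
(`div f = m · D`), THE modular unit `D = Δ(t^q)/Δ(t)`, exponents `a, b` and `G` with

  `G · D ^ b = f ^ 12 · D ^ a`   and   both reductions of `G` are in `k(X₀(M))` with
                                        `m`-divisible orders at the non-cuspidal places.

Proof.
1. DESC (`S36.H756`): a class fixed by `I_A` has a Kummer generator `f` fixed by `I_A`, and `f`
   is defined over the inertia field `E = ℚ̄^{I_A}`: `f = ι y`, `y ∈ F_E(q M)`.
2. `E` is an UNRAMIFIED good level (`S36.Eng.H189.unramified_inertiaField`).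
3. LEVEL (`tameLevel`): the calibrated function `y ^ 12 · D₁ ^ (v₁ - v₂) · w ^ (-12 v₁)` is pure
   at every closed point of the special fibre of the finite chart.
4. DICT (`H472.nodeGenOfPure`): purity ⟹ the reductions have `m`-divisible orders.
5. the constant `w ^ (-v₁)` is absorbed in the Kummer generator, `ι D₁ = D⁻¹`.
-/

set_option autoImplicit false
set_option linter.style.haveILetI false
set_option linter.unusedSectionVars false
set_option linter.unusedVariables false
set_option synthInstance.maxHeartbeats 400000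
set_option maxHeartbeats 1600000

noncomputable section

namespace Fermat.Agent.Ribet.H912

open ModularCurve AlgebraicCurve HahnSeries
open Fermat.Agent.A2 Fermat.Agent.A2.T1.H669
open Fermat.Agent.S24 Fermat.Agent.A2.H708
open Fermat.Agent.Ribet.H884

/-! ### changing the name of the level -/

section Cast

theorem exists_cast_level (E : IntermediateField ℚ Kbar) {N N' : ℕ} (h : N = N')
    (y : ↥(laurentBaseChange E (modularFunctionFieldFull N))) :
    ∃ y' : ↥(laurentBaseChange E (modularFunctionFieldFull N')),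
      (y' : LaurentSeries E) = (y : LaurentSeries E) := by
  subst h
  exact ⟨y, rfl⟩

theorem dvd_ord_cast {N N' : ℕ} (h : N = N') (m : ℕ) (f : ↥(modularFunctionFieldBar N))
    (f' : ↥(modularFunctionFieldBar N'))
    (hff : (f : LaurentSeries Kbar) = (f' : LaurentSeries Kbar))
    (hd : ∀ v : Place Kbar ↥(modularFunctionFieldBar N), (m : ℤ) ∣ v.ord f) :
    ∀ v : Place Kbar ↥(modularFunctionFieldBar N'), (m : ℤ) ∣ v.ord f' := by
  subst h
  obtain rfl : f = f' := Subtype.ext hff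
  exact hd

theorem not_dvd_twelve_h912 {p : ℕ} (hp : p.Prime) (hp5 : 5 ≤ p) : ¬ p ∣ 12 := by
  intro h
  have h43 : p ∣ 4 * 3 := h
  rcases (Nat.Prime.dvd_mul hp).mp h43 with h4 | h3
  · have := Nat.le_of_dvd (by norm_num) h4
    omega
  · have := Nat.le_of_dvd (by norm_num) h3
    omega

theorem coprime_twelve_h912 {p : ℕ} (hp : p.Prime) (hp5 : 5 ≤ p) : Nat.Coprime 12 p :=
  Nat.coprime_comm.mp ((Nat.Prime.coprime_iff_not_dvd hp).2 (not_dvd_twelve_h912 hp hp5))

end Cast

/-! ### the core -/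

section Core

variable (q M m : ℕ) [NeZero M] [NeZero q] [NeZero (q * M)]

/-- **TAME-FIXED / CORE-OUT-q, two-prime form.** -/
theorem tameCore (hq : q.Prime) (hqM : ¬ q ∣ M) (haux : Fermat.Agent.S35.G.HasAux M q)
    (hm : 0 < m) (hcop : Nat.Coprime 12 m)
    (A : ValuationSubring Kbar) (hA : A.LiesOverPrime q)
    (x : JZero (q * M)) (hx : m • x = 0)
    (hfix : ∀ σ ∈ A.inertiaSubgroupIn ℚ, σ • x = x) :
    ∃ (f D G : FF (q * M)) (a b : ℕ), IsKummerGen (q * M) m f x ∧ IsModUnit q M D ∧ D ≠ 0 ∧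
      G * D ^ b = f ^ 12 * D ^ a ∧
      ∃ r₁ r₂ : LaurentSeries (kA A), IsRedInf (q * M) A G r₁ ∧ IsRedZero (q * M) A G r₂ ∧
        PDivFin m M r₁ ∧ PDivFin m M r₂ := by
  classical
  haveI hPD : HasPrincipalDivisors Kbar ↥(modularFunctionFieldBar (q * M)) :=
    Fermat.Agent.Lib.RR.H864.hasPrincipalDivisors_modularFunctionFieldBar (q * M)
  have hconst : Fermat.Agent.S36.H756.ConstOfOrdZero Kbar ↥(modularFunctionFieldBar (q * M)) := by
    intro u hu h
    obtain ⟨c, hc⟩ :=
      Fermat.Agent.S18.H144.constOfOrdZero_modularFunctionFieldBar (q * M) u hu h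
    exact ⟨c, hc.symm⟩
  -- 1. DESC
  obtain ⟨D₀, f, hf0, hDx, hfD, hffix⟩ :=
    Fermat.Agent.S36.H756.exists_fixed_kummer_rep (F₀ := modularFunctionFieldFull (q * M))
      hconst (A.inertiaSubgroupIn ℚ) m x hx hfix
  -- 2. the unramified level
  obtain ⟨hE, hunr⟩ := Fermat.Agent.S36.Eng.H189.unramified_inertiaField q hq A hA
  set E : IntermediateField ℚ Kbar := IntermediateField.fixedField (A.inertiaSubgroupIn ℚ) with hEdef
  obtain ⟨y, hy⟩ : ∃ y : ↥(laurentBaseChange E (modularFunctionFieldFull (q * M))),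
      iota E (modularFunctionFieldFull (q * M)) y = f :=
    Fermat.Agent.S36.H756.exists_iota_eq_of_fixed (A.inertiaSubgroupIn ℚ) f hffix
  -- the level `M * q`
  obtain ⟨y', hy'⟩ := exists_cast_level E (Nat.mul_comm q M) y
  have hfy : (f : LaurentSeries Kbar) = coeffMap (algebraMap E Kbar) (y : LaurentSeries E) := by
    rw [← hy]
    rfl
  have hy'0 : y' ≠ 0 := by
    rintro rfl
    apply hf0
    apply Subtype.ext
    rw [hfy, ← hy']
    show coeffMap (algebraMap E Kbar) (0 : LaurentSeries E) = 0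
    rw [map_zero]
  have hdiv : DivisibleDiv E m y' := by
    refine divisibleDiv_of_ord E (modularFunctionFieldFull (M * q)) m y' hy'0 ?_
    refine dvd_ord_cast (Nat.mul_comm q M) m f (iota E (modularFunctionFieldFull (M * q)) y') ?_
      (fun v => ⟨_, hfD v⟩)
    rw [coe_iota, hy', hfy]
  -- 3. LEVEL
  obtain ⟨w, D₁, v₁, v₂, hS, hD₁0, hD₁, hpure⟩ :=
    tameLevel A E M q hq hqM haux hA hE hunr m hm hcop y' hy'0 hdiv
  haveI : IsDiscreteValuationRing ↥(RE A E) := hE.dvr
  have hw0 : (w : E) ≠ 0 := fun h => hS.unif.ne_zero (Subtype.ext h)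
  have hcw0 : Mod.cE A E (M * q) w ≠ 0 := by
    show algebraMap E (Mod.FE E (M * q)) (w : E) ≠ 0
    rw [Ne, map_eq_zero]
    exact hw0
  set GE : Mod.FE E (M * q) :=
    y' ^ 12 * D₁ ^ (v₁ - v₂) * Mod.cE A E (M * q) w ^ (-(12 : ℤ) * v₁) with hGE
  have hGE0 : GE ≠ 0 :=
    mul_ne_zero (mul_ne_zero (pow_ne_zero _ hy'0) (zpow_ne_zero _ hD₁0)) (zpow_ne_zero _ hcw0)
  -- the objects over `ℚ̄`
  obtain ⟨D, hD, hD0⟩ := Fermat.Agent.Ribet.H464.exists_isModUnit464 q M
  set c : Kbar := ((w : E) : Kbar) with hc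
  have hc0 : c ≠ 0 := by
    intro h
    exact hw0 (Subtype.ext h)
  set f'' : FF (q * M) := algebraMap Kbar (FF (q * M)) (c ^ (-v₁)) * f with hf''
  have hcc0 : algebraMap Kbar (FF (q * M)) (c ^ (-v₁)) ≠ 0 := by
    rw [Ne, map_eq_zero]
    exact zpow_ne_zero _ hc0
  have hf''0 : f'' ≠ 0 := mul_ne_zero hcc0 hf0
  set G : FF (q * M) := f'' ^ 12 * D ^ (v₂ - v₁) with hG
  -- the expansion of `G`
  have hGG : (G : LaurentSeries Kbar) = coeffMap (algebraMap E Kbar) (GE : LaurentSeries E) := by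
    set φ : Mod.FE E (M * q) →+* LaurentSeries Kbar :=
      (algebraMap ↥(modularFunctionFieldBar (M * q)) (LaurentSeries Kbar)).comp
        (iota E (modularFunctionFieldFull (M * q))) with hφ
    set χ : FF (q * M) →+* LaurentSeries Kbar :=
      algebraMap ↥(modularFunctionFieldBar (q * M)) (LaurentSeries Kbar) with hχ
    have hφv : ∀ z : Mod.FE E (M * q),
        φ z = coeffMap (algebraMap E Kbar) (z : LaurentSeries E) := fun z => rfl
    have hχv : ∀ z : FF (q * M), χ z = (z : LaurentSeries Kbar) := fun z => rfl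
    have e1 : φ y' = χ f := by
      rw [hφv, hχv, hy', hfy]
    have e2 : φ D₁ = (χ D)⁻¹ := by
      rw [hφv, hD₁, ← map_inv₀, hχv]
      exact (Fermat.Agent.Ribet.H464.isModUnit_inv_coe464 (E := E) hD rfl).symm
    have e3 : φ (Mod.cE A E (M * q) w) = algebraMap Kbar (LaurentSeries Kbar) c := by
      rw [hφv]
      exact Fermat.Agent.S18.H602.coeffMap_algebraMap' (algebraMap E Kbar) (w : E)
    have e4 : χ (algebraMap Kbar (FF (q * M)) (c ^ (-v₁))) =
        (algebraMap Kbar (LaurentSeries Kbar) c) ^ (-v₁) := by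
      rw [hχv, ← map_zpow₀]
      rfl
    have hχG : χ G = ((algebraMap Kbar (LaurentSeries Kbar) c) ^ (-v₁) * χ f) ^ 12 *
        (χ D) ^ (v₂ - v₁) := by
      rw [hG, hf'', map_mul, map_pow, map_mul, e4, map_zpow₀]
    have hφG : φ GE = (χ f) ^ 12 * ((χ D)⁻¹) ^ (v₁ - v₂) *
        (algebraMap Kbar (LaurentSeries Kbar) c) ^ (-(12 : ℤ) * v₁) := by
      rw [hGE, map_mul, map_mul, map_pow, map_zpow₀, map_zpow₀, e1, e2, e3]
    have e5 : -v₁ * ((12 : ℕ) : ℤ) = -(12 : ℤ) * v₁ := by push_cast; ring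
    rw [← hφv GE, ← hχv G, hχG, hφG, inv_zpow', neg_sub, mul_pow,
      ← zpow_natCast ((algebraMap Kbar (LaurentSeries Kbar) c) ^ (-v₁)) 12, ← zpow_mul, e5]
    ring
  -- 4. DICT
  have hNG := Fermat.Agent.Ribet.H472.nodeGenOfPure hS hE m GE G hGE0 hGG hpure
  -- 5. the Kummer generator and the relation
  have hK : IsKummerGen (q * M) m f'' x := by
    refine ⟨hf''0, D₀, hDx, fun v => ?_⟩
    rw [hf'', v.ord_mul hcc0 hf0, Fermat.Agent.S36.H756.ord_const_eq_zero, zero_add, hfD v]
  refine ⟨f'', D, G, (v₂ - v₁).toNat, (-(v₂ - v₁)).toNat, hK, hD, hD0, ?_, hNG⟩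
  have hk : (v₂ - v₁) + ((-(v₂ - v₁)).toNat : ℤ) = ((v₂ - v₁).toNat : ℤ) := by
    have := Int.toNat_sub_toNat_neg (v₂ - v₁)
    omega
  rw [hG, mul_assoc, ← zpow_natCast D (-(v₂ - v₁)).toNat, ← zpow_add₀ hD0, hk, zpow_natCast]

end Core

end Fermat.Agent.Ribet.H912

end
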