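import Fermat.Agent.Ribet.H912.TameCore

/-!
# TAME / CORE-OUT-q for a GENERIC modular unit pair (helper912)

`H912.tameCore` (rows 37/38) uses the unit `Δ(t)/Δ(t^q)`, whose unit pair has exponent `12`:
it needs `gcd (12, m) = 1`, i.e. `p ≥ 5`.  For `p = 3` (S59 moonshot, cells (A), (B1)) the SAME
proof works with ANY unit pair of exponent `N₀` prime to `m`:

* `UnitPairAt A M q N₀ X₀` : at every good level `E` over `A`, for every uniformiser `w` and all
  cut components `p₁, p₂` of the finite chart there are `D, D'` in the chart with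
  `D · D' = w ^ (N₀ e)` (`q ~ w ^ e`), `D ∉ p₁`, `D' ∉ p₂`, and `D` has the expansion `X₀`
  (an integer Laurent series).  `unitPairAt_delta` : the instance `(12, Δ(t)/Δ(t^q))` of main.
* `tameLevelGen`, `tameCoreGen` : `tameLevel`, `tameCore` with `12` replaced by `N₀`.
  In `tameCoreGen` the unit over `ℚ̄` is any `DQ ∈ F(q M)` with `DQ · X₀ = 1`.
-/

set_option autoImplicit false
set_option linter.style.haveILetI false
set_option linter.unusedSectionVars false
set_option linter.unusedVariables false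
set_option synthInstance.maxHeartbeats 400000
set_option maxHeartbeats 1600000

noncomputable section

namespace Fermat.Agent.Ribet.H912

open ModularCurve AlgebraicCurve HahnSeries
open Fermat.Agent.A2 Fermat.Agent.A2.Alg
open Fermat.Agent.S24 Fermat.Agent.A2.H708
open Fermat.Agent.Ribet.H884

/-- **Generic INST-B with expansion**: a modular unit pair of exponent `N₀` and expansion `X₀`,
at every good level over `A`. -/
def UnitPairAt (A : ValuationSubring Kbar) (M q N₀ : ℕ) [NeZero M] [NeZero q]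
    (X₀ : LaurentSeries ℤ) : Prop :=
  ∀ (E : IntermediateField ℚ Kbar) (w : Mod.RE A E), Mod.Setting A E M q w → GoodField A E →
    ∀ (V : ValuationSubring (Mod.FE E (M * q)))
      (W : Mod.FE E (M * q) ≃ₐ[E] Mod.FE E (M * q)),
      Mod.IsVinf A E (M * q) V → Mod.IsFricke E (M * q) W →
      ∀ p₁ p₂ : Ideal (Mod.chartAlg A E (M * q) (Mod.xE E M q)),
        Mod.IsCut A E (M * q) w V (Mod.chartAlg A E (M * q) (Mod.xE E M q)) p₁ →
        Mod.IsCut A E (M * q) w (V.comap (W : Mod.FE E (M * q) →+* Mod.FE E (M * q)))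
          (Mod.chartAlg A E (M * q) (Mod.xE E M q)) p₂ →
        ∃ (e : ℕ) (D D' : Mod.chartAlg A E (M * q) (Mod.xE E M q)), 0 < e ∧
          Associated ((q : ℕ) : Mod.RE A E) (w ^ e) ∧
          D * D' = algebraMap (Mod.RE A E) (Mod.chartAlg A E (M * q) (Mod.xE E M q)) w ^
            (N₀ * e) ∧
          D ∉ p₁ ∧ D' ∉ p₂ ∧
          (((D : Mod.FE E (M * q)) : Mod.FE E (M * q)) : LaurentSeries E) =
            Fermat.Agent.S36.H438.castE E X₀

/-- The unit pair of main: exponent `12`, expansion `Δ(t)/Δ(t^q)`. -/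
theorem unitPairAt_delta (A : ValuationSubring Kbar) (M q : ℕ) [NeZero M] [NeZero q] :
    UnitPairAt A M q 12 (Fermat.Agent.S28.H589.unitL' q) := by
  intro E w hS hE V W hV hW p₁ p₂ hc₁ hc₂
  exact Fermat.Agent.Ribet.H464.exists_unitPair_cut_exp464 hS hV hW p₁ p₂ hc₁ hc₂

section Level

variable (A : ValuationSubring Kbar) (E : IntermediateField ℚ Kbar) (M q : ℕ) [NeZero M]
  [NeZero q]

/-- **TAME at an unramified good level, generic unit pair.** -/
theorem tameLevelGen (hq : q.Prime) (hqM : ¬ q ∣ M) (haux : Fermat.Agent.S35.G.HasAux M q)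
    (hA : A.LiesOverPrime q) (hE : GoodField A E)
    (hunr : ∀ e : E, (e : Kbar) ∈ A.nonunits → (e : Kbar) * ((q : Kbar))⁻¹ ∈ A)
    (m N₀ : ℕ) (hm : 0 < m) (hN₀ : 0 < N₀) (hcop : Nat.Coprime N₀ m)
    (X₀ : LaurentSeries ℤ) (hU : UnitPairAt A M q N₀ X₀)
    (y : Mod.FE E (M * q)) (hy : y ≠ 0) (hdiv : DivisibleDiv E m y) :
    ∃ (w : Mod.RE A E) (D₁ : Mod.FE E (M * q)) (v₁ v₂ : ℤ),
      Mod.Setting A E M q w ∧ D₁ ≠ 0 ∧
      (D₁ : LaurentSeries E) = Fermat.Agent.S36.H438.castE E X₀ ∧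
      ∀ n : Ideal (Mod.chartAlg A E (M * q) (Mod.xE E M q)), n.IsMaximal →
        algebraMap (Mod.RE A E) (Mod.chartAlg A E (M * q) (Mod.xE E M q)) w ∈ n →
        ∃ (d : Mod.FE E (M * q)) (a : ℤ), d ≠ 0 ∧
          Alg.LocUnit (Mod.chartAlg A E (M * q) (Mod.xE E M q)) n
            ((y ^ N₀ * D₁ ^ (v₁ - v₂) * Mod.cE A E (M * q) w ^ (-(N₀ : ℤ) * v₁)) *
              Mod.cE A E (M * q) w ^ a * d ^ m) := by
  haveI : IsDiscreteValuationRing ↥(RE A E) := hE.dvr
  haveI : HenselianLocalRing ↥(RE A E) := hE.henselian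
  haveI : IsAlgClosed (IsLocalRing.ResidueField ↥(RE A E)) := hE.algClosed
  obtain ⟨w, hw⟩ := IsDiscreteValuationRing.exists_irreducible ↥(RE A E)
  have hS : Mod.Setting A E M q w :=
    { q_prime := hq
      q_not_dvd := hqM
      M_ne_zero := NeZero.ne M
      lies_over := hA
      dvr := hE.dvr
      unif := hw }
  obtain ⟨V, W, VM, hV, hW, hVM, hg1, hg2, hDeg, sf, si, cf, ci, hcf, hci⟩ :=
    Fermat.Agent.S35.G.H862.model A E M q w hS hE haux
  obtain ⟨hx, hfr, hconst⟩ := hDeg hq hqM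
  have hpos : 0 < Module.finrank
      (IntermediateField.adjoin E ({Mod.xE E M q} : Set (Mod.FE E (M * q))))
      (Mod.FE E (M * q)) := by
    rw [hfr]
    have h1 := Mod.dedekindPsi_pos_of_ne_zero M (NeZero.ne M)
    positivity
  have hfin : FiniteDimensional
      (IntermediateField.adjoin E ({Mod.xE E M q} : Set (Mod.FE E (M * q))))
      (Mod.FE E (M * q)) := Module.finite_of_finrank_pos hpos
  have hCf : ChartCtx E w (Mod.xE E M q) (Mod.chartAlg A E (M * q) (Mod.xE E M q)) :=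
    ⟨hw, hx, hfin, hconst, fun _ => Iff.rfl⟩
  -- the unit pair
  obtain ⟨e, D, D', he, hass, hmul, hD, hD', hexp⟩ :=
    hU E w hS hE V W hV hW cf.p₁ cf.p₂ (fun b => hcf.cut₁ b) (fun b => hcf.cut₂ b)
  have he1 : e = 1 := Fermat.Agent.Ribet.H464.pow_eq_of_associated464 hw hass
    (associated_natCast_of_unramified hq hA hE.dvr hunr hw)
  subst he1
  rw [mul_one] at hmul
  -- valuations along the two components
  obtain ⟨v₁, v₂, hv₁, hv₂⟩ := Fermat.Agent.Ribet.H868.exists_valAt_chart (E := E) w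
    (Mod.xE E M q) (Mod.chartAlg A E (M * q) (Mod.xE E M q)) hCf cf y hy
  have hD0 : (D : Mod.FE E (M * q)) ≠ 0 := by
    intro h0
    have : D = 0 := Subtype.ext h0
    exact hD (this ▸ cf.p₁.zero_mem)
  refine ⟨w, (D : Mod.FE E (M * q)), v₁, v₂, hS, hD0, hexp, ?_⟩
  intro n hn hwn
  obtain ⟨d, hd0, hloc, -, -⟩ := Fermat.Agent.Ribet.H868.pureAt_tame (E := E) m N₀ hm
    hN₀ hcop w (Mod.xE E M q) (Mod.chartAlg A E (M * q) (Mod.xE E M q)) hCf cf
    D D' hmul hD hD' y hy hdiv v₁ v₂ hv₁ hv₂ n hn.isPrime hwn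
  refine ⟨d, 0, hd0, ?_⟩
  rw [zpow_zero, mul_one]
  exact hloc

end Level

section Core

variable (q M m : ℕ) [NeZero M] [NeZero q] [NeZero (q * M)]

/-- **TAME-FIXED / CORE-OUT-q, generic unit pair** (`N₀` prime to `m`; `p = 3` allowed). -/
theorem tameCoreGen (hq : q.Prime) (hqM : ¬ q ∣ M) (haux : Fermat.Agent.S35.G.HasAux M q)
    (hm : 0 < m) (N₀ : ℕ) (hN₀ : 0 < N₀) (hcop : Nat.Coprime N₀ m)
    (A : ValuationSubring Kbar) (hA : A.LiesOverPrime q)
    (X₀ : LaurentSeries ℤ) (hU : UnitPairAt A M q N₀ X₀)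
    (DQ : FF (q * M)) (hDQ0 : DQ ≠ 0)
    (hDQ : ∀ E : IntermediateField ℚ Kbar, (DQ : LaurentSeries Kbar) *
      coeffMap (algebraMap E Kbar) (Fermat.Agent.S36.H438.castE E X₀) = 1)
    (x : JZero (q * M)) (hx : m • x = 0)
    (hfix : ∀ σ ∈ A.inertiaSubgroupIn ℚ, σ • x = x) :
    ∃ (f G : FF (q * M)) (a b : ℕ), IsKummerGen (q * M) m f x ∧
      G * DQ ^ b = f ^ N₀ * DQ ^ a ∧
      ∃ r₁ r₂ : LaurentSeries (kA A), IsRedInf (q * M) A G r₁ ∧ IsRedZero (q * M) A G r₂ ∧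
        PDivFin m M r₁ ∧ PDivFin m M r₂ := by
  classical
  haveI hPD : HasPrincipalDivisors Kbar ↥(modularFunctionFieldBar (q * M)) :=
    Fermat.Agent.Lib.RR.H864.hasPrincipalDivisors_modularFunctionFieldBar (q * M)
  have hconst : Fermat.Agent.S36.H756.ConstOfOrdZero Kbar ↥(modularFunctionFieldBar (q * M)) := by
    intro u hu h
    obtain ⟨c, hc⟩ :=
      Fermat.Agent.S18.H144.constOfOrdZero_modularFunctionFieldBar (q * M) u hu h
    exact ⟨c, hc.symm⟩
  -- 1. DESC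
  obtain ⟨D₀, f, hf0, hDx, hfD, hffix⟩ :=
    Fermat.Agent.S36.H756.exists_fixed_kummer_rep (F₀ := modularFunctionFieldFull (q * M))
      hconst (A.inertiaSubgroupIn ℚ) m x hx hfix
  -- 2. the unramified level
  obtain ⟨hE, hunr⟩ := Fermat.Agent.S36.Eng.H189.unramified_inertiaField q hq A hA
  set E : IntermediateField ℚ Kbar := IntermediateField.fixedField (A.inertiaSubgroupIn ℚ) with hEdef
  obtain ⟨y, hy⟩ : ∃ y : ↥(laurentBaseChange E (modularFunctionFieldFull (q * M))),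
      Fermat.Agent.A2.T1.H669.iota E (modularFunctionFieldFull (q * M)) y = f :=
    Fermat.Agent.S36.H756.exists_iota_eq_of_fixed (A.inertiaSubgroupIn ℚ) f hffix
  -- the level `M * q`
  obtain ⟨y', hy'⟩ := exists_cast_level E (Nat.mul_comm q M) y
  have hfy : (f : LaurentSeries Kbar) = coeffMap (algebraMap E Kbar) (y : LaurentSeries E) := by
    rw [← hy]
    rfl
  have hy'0 : y' ≠ 0 := by
    rintro rfl
    apply hf0
    apply Subtype.ext
    rw [hfy, ← hy']
    show coeffMap (algebraMap E Kbar) (0 : LaurentSeries E) = 0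
    rw [map_zero]
  have hdiv : DivisibleDiv E m y' := by
    refine Fermat.Agent.A2.T1.H669.divisibleDiv_of_ord E (modularFunctionFieldFull (M * q)) m y'
      hy'0 ?_
    refine dvd_ord_cast (Nat.mul_comm q M) m f
      (Fermat.Agent.A2.T1.H669.iota E (modularFunctionFieldFull (M * q)) y') ?_
      (fun v => ⟨_, hfD v⟩)
    rw [Fermat.Agent.A2.T1.H669.coe_iota, hy', hfy]
  -- 3. LEVEL
  obtain ⟨w, D₁, v₁, v₂, hS, hD₁0, hD₁, hpure⟩ :=
    tameLevelGen A E M q hq hqM haux hA hE hunr m N₀ hm hN₀ hcop X₀ hU y' hy'0 hdiv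
  haveI : IsDiscreteValuationRing ↥(RE A E) := hE.dvr
  have hw0 : (w : E) ≠ 0 := fun h => hS.unif.ne_zero (Subtype.ext h)
  have hcw0 : Mod.cE A E (M * q) w ≠ 0 := by
    show algebraMap E (Mod.FE E (M * q)) (w : E) ≠ 0
    rw [Ne, map_eq_zero]
    exact hw0
  set GE : Mod.FE E (M * q) :=
    y' ^ N₀ * D₁ ^ (v₁ - v₂) * Mod.cE A E (M * q) w ^ (-(N₀ : ℤ) * v₁) with hGE
  have hGE0 : GE ≠ 0 :=
    mul_ne_zero (mul_ne_zero (pow_ne_zero _ hy'0) (zpow_ne_zero _ hD₁0)) (zpow_ne_zero _ hcw0)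
  -- the objects over `ℚ̄`
  set c : Kbar := ((w : E) : Kbar) with hc
  have hc0 : c ≠ 0 := by
    intro h
    exact hw0 (Subtype.ext h)
  set f'' : FF (q * M) := algebraMap Kbar (FF (q * M)) (c ^ (-v₁)) * f with hf''
  have hcc0 : algebraMap Kbar (FF (q * M)) (c ^ (-v₁)) ≠ 0 := by
    rw [Ne, map_eq_zero]
    exact zpow_ne_zero _ hc0
  have hf''0 : f'' ≠ 0 := mul_ne_zero hcc0 hf0
  set G : FF (q * M) := f'' ^ N₀ * DQ ^ (v₂ - v₁) with hG
  -- the expansion of `G`
  have hGG : (G : LaurentSeries Kbar) = coeffMap (algebraMap E Kbar) (GE : LaurentSeries E) := by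
    set φ : Mod.FE E (M * q) →+* LaurentSeries Kbar :=
      (algebraMap ↥(modularFunctionFieldBar (M * q)) (LaurentSeries Kbar)).comp
        (Fermat.Agent.A2.T1.H669.iota E (modularFunctionFieldFull (M * q))) with hφ
    set χ : FF (q * M) →+* LaurentSeries Kbar :=
      algebraMap ↥(modularFunctionFieldBar (q * M)) (LaurentSeries Kbar) with hχ
    have hφv : ∀ z : Mod.FE E (M * q),
        φ z = coeffMap (algebraMap E Kbar) (z : LaurentSeries E) := fun z => rfl
    have hχv : ∀ z : FF (q * M), χ z = (z : LaurentSeries Kbar) := fun z => rfl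
    have e1 : φ y' = χ f := by
      rw [hφv, hχv, hy', hfy]
    have e2 : φ D₁ = (χ DQ)⁻¹ := by
      rw [hφv, hD₁, hχv]
      exact eq_inv_of_mul_eq_one_right (hDQ E)
    have e3 : φ (Mod.cE A E (M * q) w) = algebraMap Kbar (LaurentSeries Kbar) c := by
      rw [hφv]
      exact Fermat.Agent.S18.H602.coeffMap_algebraMap' (algebraMap E Kbar) (w : E)
    have e4 : χ (algebraMap Kbar (FF (q * M)) (c ^ (-v₁))) =
        (algebraMap Kbar (LaurentSeries Kbar) c) ^ (-v₁) := by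
      rw [hχv, ← map_zpow₀]
      rfl
    have hχG : χ G = ((algebraMap Kbar (LaurentSeries Kbar) c) ^ (-v₁) * χ f) ^ N₀ *
        (χ DQ) ^ (v₂ - v₁) := by
      rw [hG, hf'', map_mul, map_pow, map_mul, e4, map_zpow₀]
    have hφG : φ GE = (χ f) ^ N₀ * ((χ DQ)⁻¹) ^ (v₁ - v₂) *
        (algebraMap Kbar (LaurentSeries Kbar) c) ^ (-(N₀ : ℤ) * v₁) := by
      rw [hGE, map_mul, map_mul, map_pow, map_zpow₀, map_zpow₀, e1, e2, e3]
    have e5 : -v₁ * ((N₀ : ℕ) : ℤ) = -(N₀ : ℤ) * v₁ := by ring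
    rw [← hφv GE, ← hχv G, hχG, hφG, inv_zpow', neg_sub, mul_pow,
      ← zpow_natCast ((algebraMap Kbar (LaurentSeries Kbar) c) ^ (-v₁)) N₀, ← zpow_mul, e5]
    ring
  -- 4. DICT
  have hNG := Fermat.Agent.Ribet.H472.nodeGenOfPure hS hE m GE G hGE0 hGG hpure
  -- 5. the Kummer generator and the relation
  have hK : IsKummerGen (q * M) m f'' x := by
    refine ⟨hf''0, D₀, hDx, fun v => ?_⟩
    rw [hf'', v.ord_mul hcc0 hf0, Fermat.Agent.S36.H756.ord_const_eq_zero, zero_add, hfD v]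
  refine ⟨f'', G, (v₂ - v₁).toNat, (-(v₂ - v₁)).toNat, hK, ?_, hNG⟩
  have hk : (v₂ - v₁) + ((-(v₂ - v₁)).toNat : ℤ) = ((v₂ - v₁).toNat : ℤ) := by
    have := Int.toNat_sub_toNat_neg (v₂ - v₁)
    omega
  rw [hG, mul_assoc, ← zpow_natCast DQ (-(v₂ - v₁)).toNat, ← zpow_add₀ hDQ0, hk, zpow_natCast]

end Core

end Fermat.Agent.Ribet.H912

end
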