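import Fermat.Agent.Ribet.H868.TameChart
import Fermat.Agent.Ribet.H464.UnitPairExp
import Fermat.Agent.S35.G.H862.Model
import Fermat.Agent.S36.Eng.H189.Unr
import Fermat.Agent.A2.T1.H669.T1

/-!
# RIBET rows 37/38, TAME / CORE-OUT-q: the LEVEL statement in two-prime form (helper912)

`A` a place of `ℚ̄` over the residue prime `q`, `q ∤ M`, `E` an UNRAMIFIED good level for `A`
(`q` is a uniformiser of `R_E = A ∩ E`; e.g. the inertia field, `S36.Eng.H189`), `m > 0` prime to
`12` (the exponent; `m = p ^ n`, `p ≥ 5`, `p = q` allowed).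

`tameLevel` : for `y ∈ F_E(M q)ˣ` with `m ∣ div y` there are a uniformiser `w`, the unit
`D₁ = Δ(t)/Δ(t^q)` and `v₁, v₂ ∈ ℤ` such that the calibrated function

  `G = y ^ 12 · D₁ ^ (v₁ - v₂) · w ^ (- 12 v₁)`

is pure (exponent `m`) at every closed point of the special fibre of the finite chart
`chartAlg (x)`, `x = j · j_q`:  exactly the hypothesis of `H472.nodeGenOfPure`.

Proof: semistable model with cut components (`S35.G.H862.model`), modular unit pair
`D₁ · D₂ = w ^ 12` (`H464.exists_unitPair_cut_exp464`, `e = 1` because the level is unramified),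
`H868.pureAt_tame` (tame node relation + node purity + smooth purity).
-/

set_option autoImplicit false
set_option linter.style.haveILetI false
set_option linter.unusedSectionVars false
set_option linter.unusedVariables false
set_option synthInstance.maxHeartbeats 400000
set_option maxHeartbeats 1600000

noncomputable section

namespace Fermat.Agent.Ribet.H912

open ModularCurve AlgebraicCurve
open Fermat.Agent.A2 Fermat.Agent.A2.Alg

section Unr

variable {A : ValuationSubring Qb} {E : IntermediateField ℚ Qb}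

/-- At an unramified level the residue characteristic is associated to every uniformiser. -/
theorem associated_natCast_of_unramified {q : ℕ} (hq : q.Prime) (hA : A.LiesOverPrime q)
    (hdvr : IsDiscreteValuationRing ↥(RE A E))
    (hunr : ∀ e : E, (e : Qb) ∈ A.nonunits → (e : Qb) * ((q : Qb))⁻¹ ∈ A)
    {w : ↥(RE A E)} (hw : Irreducible w) :
    Associated ((q : ℕ) : ↥(RE A E)) (w ^ 1) := by
  haveI := hdvr
  rw [pow_one]
  have hqm : ((q : ℕ) : ↥(RE A E)) ∈ IsLocalRing.maximalIdeal ↥(RE A E) :=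
    T1.H669.natCast_mem_maximalIdeal_RE E hA
  -- `w ∣ q`
  have h1 : w ∣ ((q : ℕ) : ↥(RE A E)) := by
    rw [hw.maximalIdeal_eq, Ideal.mem_span_singleton] at hqm
    exact hqm
  -- `q ∣ w`
  have hwm : (((w : ↥(RE A E)) : E) : Qb) ∈ A.nonunits := by
    rw [ValuationSubring.mem_nonunits_iff]
    by_contra hlt
    have hle : A.valuation ((((w : ↥(RE A E)) : E) : Qb)) ≤ 1 :=
      (A.valuation_le_one_iff _).2 w.2
    have heq : A.valuation ((((w : ↥(RE A E)) : E) : Qb)) = 1 :=
      le_antisymm hle (not_lt.1 hlt)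
    have hw0 : (w : E) ≠ 0 := fun h => hw.ne_zero (Subtype.ext h)
    have hinv : ((((w : ↥(RE A E)) : E))⁻¹ : E) ∈ RE A E := by
      show algebraMap E Qb ((w : E))⁻¹ ∈ A
      rw [map_inv₀, ← A.valuation_le_one_iff, map_inv₀]
      have : A.valuation (algebraMap E Qb (w : E)) = 1 := heq
      rw [this, inv_one]
    apply hw.not_isUnit
    exact ⟨⟨w, ⟨_, hinv⟩, Subtype.ext (mul_inv_cancel₀ hw0), Subtype.ext (inv_mul_cancel₀ hw0)⟩,
      rfl⟩
  have hq0 : ((q : ℕ) : Qb) ≠ 0 := Nat.cast_ne_zero.mpr hq.ne_zero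
  have h2 : ((q : ℕ) : ↥(RE A E)) ∣ w := by
    have hmem := hunr (w : E) hwm
    have hmemE : (w : E) * ((q : ℕ) : E)⁻¹ ∈ RE A E := by
      show algebraMap E Qb ((w : E) * ((q : ℕ) : E)⁻¹) ∈ A
      rw [map_mul, map_inv₀, map_natCast]
      exact hmem
    refine ⟨⟨_, hmemE⟩, ?_⟩
    apply Subtype.ext
    have hqE : ((q : ℕ) : E) ≠ 0 := Nat.cast_ne_zero.mpr hq.ne_zero
    show (w : E) = (((q : ℕ) : ↥(RE A E)) : E) * ((w : E) * ((q : ℕ) : E)⁻¹)
    have e1 : ((((q : ℕ) : ↥(RE A E)) : ↥(RE A E)) : E) = ((q : ℕ) : E) := by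
      simp
    rw [e1]
    field_simp
  exact associated_of_dvd_dvd h2 h1

end Unr

section Level

variable (A : ValuationSubring Qb) (E : IntermediateField ℚ Qb) (M q : ℕ) [NeZero M] [NeZero q]

/-- **TAME at an unramified good level** (two-prime form). -/
theorem tameLevel (hq : q.Prime) (hqM : ¬ q ∣ M) (haux : Fermat.Agent.S35.G.HasAux M q)
    (hA : A.LiesOverPrime q) (hE : GoodField A E)
    (hunr : ∀ e : E, (e : Qb) ∈ A.nonunits → (e : Qb) * ((q : Qb))⁻¹ ∈ A)
    (m : ℕ) (hm : 0 < m) (hcop : Nat.Coprime 12 m)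
    (y : Mod.FE E (M * q)) (hy : y ≠ 0) (hdiv : DivisibleDiv E m y) :
    ∃ (w : Mod.RE A E) (D₁ : Mod.FE E (M * q)) (v₁ v₂ : ℤ),
      Mod.Setting A E M q w ∧ D₁ ≠ 0 ∧
      (D₁ : LaurentSeries E) =
        Fermat.Agent.S36.H438.castE E (Fermat.Agent.S28.H589.unitL' q) ∧
      ∀ n : Ideal (Mod.chartAlg A E (M * q) (Mod.xE E M q)), n.IsMaximal →
        algebraMap (Mod.RE A E) (Mod.chartAlg A E (M * q) (Mod.xE E M q)) w ∈ n →
        ∃ (d : Mod.FE E (M * q)) (a : ℤ), d ≠ 0 ∧
          Alg.LocUnit (Mod.chartAlg A E (M * q) (Mod.xE E M q)) n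
            ((y ^ 12 * D₁ ^ (v₁ - v₂) * Mod.cE A E (M * q) w ^ (-(12 : ℤ) * v₁)) *
              Mod.cE A E (M * q) w ^ a * d ^ m) := by
  haveI : IsDiscreteValuationRing ↥(RE A E) := hE.dvr
  haveI : HenselianLocalRing ↥(RE A E) := hE.henselian
  haveI : IsAlgClosed (IsLocalRing.ResidueField ↥(RE A E)) := hE.algClosed
  obtain ⟨w, hw⟩ := IsDiscreteValuationRing.exists_irreducible ↥(RE A E)
  have hS : Mod.Setting A E M q w :=
    { q_prime := hq
      q_not_dvd := hqM
      M_ne_zero := NeZero.ne M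
      lies_over := hA
      dvr := hE.dvr
      unif := hw }
  obtain ⟨V, W, VM, hV, hW, hVM, hg1, hg2, hDeg, sf, si, cf, ci, hcf, hci⟩ :=
    Fermat.Agent.S35.G.H862.model A E M q w hS hE haux
  obtain ⟨hx, hfr, hconst⟩ := hDeg hq hqM
  have hpos : 0 < Module.finrank
      (IntermediateField.adjoin E ({Mod.xE E M q} : Set (Mod.FE E (M * q))))
      (Mod.FE E (M * q)) := by
    rw [hfr]
    have h1 := Mod.dedekindPsi_pos_of_ne_zero M (NeZero.ne M)
    positivity
  have hfin : FiniteDimensional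
      (IntermediateField.adjoin E ({Mod.xE E M q} : Set (Mod.FE E (M * q))))
      (Mod.FE E (M * q)) := Module.finite_of_finrank_pos hpos
  have hCf : ChartCtx E w (Mod.xE E M q) (Mod.chartAlg A E (M * q) (Mod.xE E M q)) :=
    ⟨hw, hx, hfin, hconst, fun _ => Iff.rfl⟩
  -- the unit pair
  obtain ⟨e, D, D', he, hass, hmul, hD, hD', hexp⟩ :=
    Fermat.Agent.Ribet.H464.exists_unitPair_cut_exp464 hS hV hW cf.p₁ cf.p₂
      (fun b => hcf.cut₁ b) (fun b => hcf.cut₂ b)
  have he1 : e = 1 := Fermat.Agent.Ribet.H464.pow_eq_of_associated464 hw hass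
    (associated_natCast_of_unramified hq hA hE.dvr hunr hw)
  subst he1
  rw [mul_one] at hmul
  -- valuations along the two components
  obtain ⟨v₁, v₂, hv₁, hv₂⟩ := Fermat.Agent.Ribet.H868.exists_valAt_chart (E := E) w
    (Mod.xE E M q) (Mod.chartAlg A E (M * q) (Mod.xE E M q)) hCf cf y hy
  have hD0 : (D : Mod.FE E (M * q)) ≠ 0 := by
    intro h0
    have : D = 0 := Subtype.ext h0
    exact hD (this ▸ cf.p₁.zero_mem)
  refine ⟨w, (D : Mod.FE E (M * q)), v₁, v₂, hS, hD0, hexp, ?_⟩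
  intro n hn hwn
  obtain ⟨d, hd0, hloc, -, -⟩ := Fermat.Agent.Ribet.H868.pureAt_tame (E := E) m 12 hm
    (by norm_num) hcop w (Mod.xE E M q) (Mod.chartAlg A E (M * q) (Mod.xE E M q)) hCf cf
    D D' hmul hD hD' y hy hdiv v₁ v₂ hv₁ hv₂ n hn.isPrime hwn
  refine ⟨d, 0, hd0, ?_⟩
  rw [zpow_zero, mul_one]
  exact hloc

end Level

end Fermat.Agent.Ribet.H912

end
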